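import Fermat.Agent.S20.Defs

/-!
# Package C5, part 1: the `conj` API used by `sum_weights`

(local copies in the namespace `Fermat.Agent.S20.SumW`, so that nothing here can clash with the
`conj` API of the package `PointIndep`).
-/

set_option autoImplicit false

open UpperHalfPlane ModularForm CongruenceSubgroup Matrix.SpecialLinearGroup
open scoped MatrixGroups ModularForm Manifold

namespace Fermat.Agent.S20.SumW

variable {Γ : Subgroup SL(2, ℤ)} {k : ℤ} {f : ℍ → ℂ}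

/-- For a `Γ`-invariant `f`, `f ∣[k] g⁻¹` depends only on the left coset `g Γ`. -/
theorem slash_inv_eq_conj (hf : ∀ γ ∈ Γ, f ∣[k] γ = f) (g : SL(2, ℤ)) :
    f ∣[k] g⁻¹ = conj Γ k f (g : SL(2, ℤ) ⧸ Γ) := by
  unfold conj
  set q : SL(2, ℤ) ⧸ Γ := (g : SL(2, ℤ) ⧸ Γ) with hq
  have h1 : ((q.out : SL(2, ℤ)) : SL(2, ℤ) ⧸ Γ) = (g : SL(2, ℤ) ⧸ Γ) := QuotientGroup.out_eq' q
  have h2 : (q.out : SL(2, ℤ))⁻¹ * g ∈ Γ := QuotientGroup.eq.mp h1
  have h3 : (q.out : SL(2, ℤ))⁻¹ = ((q.out : SL(2, ℤ))⁻¹ * g) * g⁻¹ := by group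
  rw [h3, SlashAction.slash_mul, hf _ h2]

/-- The slash action permutes the conjugates. -/
theorem conj_slash (hf : ∀ γ ∈ Γ, f ∣[k] γ = f) (q : SL(2, ℤ) ⧸ Γ) (γ : SL(2, ℤ)) :
    (conj Γ k f q) ∣[k] γ = conj Γ k f (γ⁻¹ • q) := by
  have h1 : γ⁻¹ • q = ((γ⁻¹ * q.out : SL(2, ℤ)) : SL(2, ℤ) ⧸ Γ) := by
    conv_lhs => rw [← QuotientGroup.out_eq' q]
    rfl
  rw [h1, ← slash_inv_eq_conj hf]
  unfold conj
  rw [← SlashAction.slash_mul]
  congr 1
  group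

/-- Pointwise form of `conj_slash`. -/
theorem conj_smul_apply (hf : ∀ γ ∈ Γ, f ∣[k] γ = f) (q : SL(2, ℤ) ⧸ Γ) (γ : SL(2, ℤ))
    (τ : ℍ) :
    conj Γ k f q (γ • τ) = denom γ τ ^ k * conj Γ k f (γ⁻¹ • q) τ := by
  have h := congrFun (conj_slash hf q γ) τ
  rw [SL_slash_apply] at h
  rw [← h, mul_comm, mul_assoc, ← zpow_add₀ (denom_ne_zero γ τ)]
  simp

/-- The conjugates of a holomorphic function are holomorphic. -/
theorem conj_mdiff (hf : MDiff f) (q : SL(2, ℤ) ⧸ Γ) : MDiff (conj Γ k f q) := by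
  unfold conj
  rw [SL_slash]
  exact hf.slash k _

end Fermat.Agent.S20.SumW
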