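import Fermat.Agent.S20.SumWeights.Det

/-!
# Package C5, part 4: `∑ k_j = 6 (d - c)` from the three black boxes

`sum_weights_of` is the statement of `sum_weights` with the three inputs (`pointwise_indep`,
`card_eq_index`, `infty_structure`) as explicit hypotheses.  This file does not depend on any other
package of the S20 skeleton (only on `Defs.lean`).
-/

set_option autoImplicit false

open UpperHalfPlane ModularForm CongruenceSubgroup Matrix.SpecialLinearGroup EisensteinSeries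
open Filter Topology
open scoped MatrixGroups ModularForm Manifold

namespace Fermat.Agent.S20.SumW

variable {N : ℕ} [NeZero N] {ι : Type} [Fintype ι] {k : ι → ℤ} {F : ι → ℍ → ℂ}

/-- Transformation law of the discriminant, pointwise. -/
theorem disc_smul (γ : SL(2, ℤ)) (τ : ℍ) :
    ModularForm.discriminant (γ • τ) = denom γ τ ^ (12 : ℤ) * ModularForm.discriminant τ := by
  have h := congrFun (SlashInvariantForm.slash_action_generators_SL2Z
    ModularForm.discriminant_S_invariant ModularForm.discriminant_T_invariant γ) τ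
  rw [SL_slash_apply] at h
  rw [← h, mul_comm, mul_assoc, ← zpow_add₀ (denom_ne_zero γ τ)]
  simp

theorem disc_mdiff : MDiff ModularForm.discriminant :=
  CuspForm.discriminant.holo'

/-- The statement of `infty_structure`, as a proposition. -/
def InftyStructure (N : ℕ) [NeZero N] (k : ι → ℤ) (F : ι → ℍ → ℂ) : Prop :=
  ∃ (e : (SL(2, ℤ) ⧸ Gamma0 N) → ℝ)
    (B : Matrix (SL(2, ℤ) ⧸ Gamma0 N) (SL(2, ℤ) ⧸ Gamma0 N) ℂ)
    (U : ℍ → Matrix ι (SL(2, ℤ) ⧸ Gamma0 N) ℂ)
    (L : Matrix ι (SL(2, ℤ) ⧸ Gamma0 N) ℂ),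
    (∀ q, 0 ≤ e q ∧ e q < 1) ∧
    (2 * ∑ q, e q = ((Gamma0 N).index : ℝ) - numCusps N) ∧
    B.det ≠ 0 ∧
    (∀ (τ : ℍ) (j : ι) (q : SL(2, ℤ) ⧸ Gamma0 N),
      conj (Gamma0 N) (k j) (F j) q τ =
        ∑ q', U τ j q' * Complex.exp (2 * Real.pi * Complex.I * e q' * τ) * B q' q) ∧
    (∀ j q, Tendsto (fun τ : ℍ => U τ j q) atImInfty (𝓝 (L j q))) ∧
    LinearIndependent ℂ (fun j : ι => L j)

omit [Fintype ι] in
/-- The number of cusps is at most the index, and `D² / Δ^(d - c)` has a nonzero limit at `i∞`. -/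
theorem conjDet_sq_div_tendsto (hinf : InftyStructure N k F) (e : (SL(2, ℤ) ⧸ Gamma0 N) ≃ ι) :
    ∃ (n : ℕ) (ℓ : ℂ), (n : ℤ) = ((Gamma0 N).index : ℤ) - numCusps N ∧ ℓ ≠ 0 ∧
      Tendsto (fun τ : ℍ => conjDet N k F e τ ^ 2 / ModularForm.discriminant τ ^ n)
        atImInfty (𝓝 ℓ) := by
  obtain ⟨ee, B, U, L, he, hsum, hBdet, hfac, hlim, hL⟩ := hinf
  -- the exponent
  have hle : (numCusps N : ℝ) ≤ ((Gamma0 N).index : ℝ) := by
    have h0 : 0 ≤ ∑ q, ee q := Finset.sum_nonneg fun q _ => (he q).1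
    linarith
  have hle' : numCusps N ≤ (Gamma0 N).index := by exact_mod_cast hle
  obtain ⟨n, hn⟩ := Nat.exists_eq_add_of_le hle'
  have hnR : (n : ℝ) = 2 * ∑ q, ee q := by
    rw [hsum, hn]; push_cast; ring
  -- the square matrices
  set U' : ℍ → Matrix (SL(2, ℤ) ⧸ Gamma0 N) (SL(2, ℤ) ⧸ Gamma0 N) ℂ :=
    fun τ => Matrix.of fun p q => U τ (e p) q with hU'
  set L' : Matrix (SL(2, ℤ) ⧸ Gamma0 N) (SL(2, ℤ) ⧸ Gamma0 N) ℂ :=
    Matrix.of fun p q => L (e p) q with hL'
  have hL'det : L'.det ≠ 0 := by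
    have h2 : LinearIndependent ℂ L'.row := hL.comp e e.injective
    have h3 := Matrix.linearIndependent_rows_iff_isUnit.mp h2
    exact ((Matrix.isUnit_iff_isUnit_det _).mp h3).ne_zero
  have hUlim : Tendsto (fun τ => (U' τ).det) atImInfty (𝓝 L'.det) := by
    have h1 : Tendsto U' atImInfty (𝓝 L') :=
      tendsto_pi_nhds.mpr fun p => tendsto_pi_nhds.mpr fun q => hlim (e p) q
    exact ((continuous_id.matrix_det).tendsto L').comp h1
  -- factorisation of the determinant
  have hdet : ∀ τ : ℍ, conjDet N k F e τ =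
      (U' τ).det * (∏ q, Complex.exp (2 * Real.pi * Complex.I * ee q * τ)) * B.det := by
    intro τ
    have hM : conjMat N k F e τ =
        U' τ * Matrix.diagonal (fun q => Complex.exp (2 * Real.pi * Complex.I * ee q * τ)) * B := by
      ext p q
      rw [Matrix.mul_apply]
      simp only [Matrix.mul_diagonal, conjMat, Matrix.of_apply, hU']
      exact hfac τ (e p) q
    rw [conjDet, hM, Matrix.det_mul, Matrix.det_mul, Matrix.det_diagonal]
  have hprod : ∀ τ : ℍ, (∏ q, Complex.exp (2 * Real.pi * Complex.I * ee q * τ)) ^ 2 =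
      (Function.Periodic.qParam 1 τ) ^ n := by
    intro τ
    rw [← Complex.exp_sum, ← Complex.exp_nat_mul, Function.Periodic.qParam, ← Complex.exp_nat_mul]
    congr 1
    have hnC : (n : ℂ) = 2 * ∑ q, (ee q : ℂ) := by
      have := congrArg (fun x : ℝ => (x : ℂ)) hnR
      simpa using this
    rw [hnC, Finset.mul_sum, Finset.mul_sum, Finset.sum_mul]
    refine Finset.sum_congr rfl fun q _ => ?_
    push_cast
    ring
  refine ⟨n, L'.det ^ 2 * B.det ^ 2, ?_, ?_, ?_⟩
  · rw [hn]; push_cast; ring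
  · exact mul_ne_zero (pow_ne_zero _ hL'det) (pow_ne_zero _ hBdet)
  · have hP := ModularForm.tendsto_atImInfty_tprod_one_sub_eta_q_pow
    have hPn : Tendsto (fun τ : ℍ => (∏' m : ℕ, (1 - ModularForm.eta_q m τ) ^ 24) ^ n)
        atImInfty (𝓝 1) := by
      simpa using hP.pow n
    have hmain : Tendsto (fun τ : ℍ => (U' τ).det ^ 2 * B.det ^ 2 /
        (∏' m : ℕ, (1 - ModularForm.eta_q m τ) ^ 24) ^ n) atImInfty
        (𝓝 (L'.det ^ 2 * B.det ^ 2 / 1)) :=
      ((hUlim.pow 2).mul tendsto_const_nhds).div hPn one_ne_zero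
    rw [div_one] at hmain
    refine hmain.congr fun τ => ?_
    have hq : Function.Periodic.qParam 1 (τ : ℂ) ≠ 0 := by
      simp [Function.Periodic.qParam]
    rw [hdet τ, ModularForm.discriminant_eq_q_prod, mul_pow, mul_pow, mul_pow, hprod τ]
    field_simp

/-- **C5**, with the three inputs as hypotheses. -/
theorem sum_weights_of (hmem : ∀ j, IsMF (Gamma0 N) (k j) (F j))
    (hpi : ∀ τ : ℍ, LinearIndependent ℂ
      (fun j : ι => fun q : SL(2, ℤ) ⧸ Gamma0 N => conj (Gamma0 N) (k j) (F j) q τ))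
    (hci : Fintype.card ι = (Gamma0 N).index)
    (hinf : InftyStructure N k F) :
    ∑ j, k j = 6 * (((Gamma0 N).index : ℤ) - numCusps N) := by
  have hcard : Fintype.card (SL(2, ℤ) ⧸ Gamma0 N) = Fintype.card ι := by
    rw [hci, Subgroup.index, Nat.card_eq_fintype_card]
  obtain ⟨n, ℓ, hn, hℓ, hlim⟩ := conjDet_sq_div_tendsto hinf (Fintype.equivOfCardEq hcard)
  set e := Fintype.equivOfCardEq hcard
  have hG : MDiff (fun τ : ℍ => conjDet N k F e τ ^ 2 / ModularForm.discriminant τ ^ n) :=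
    ((conjDet_mdiff hmem e).pow 2).div (disc_mdiff.pow n)
      (fun τ => pow_ne_zero _ (ModularForm.discriminant_ne_zero τ))
  have hinv : ∀ (γ : SL(2, ℤ)) (τ : ℍ),
      (fun τ : ℍ => conjDet N k F e τ ^ 2 / ModularForm.discriminant τ ^ n) (γ • τ) =
        denom γ τ ^ (2 * ∑ j, k j - 12 * (n : ℤ)) *
          (fun τ : ℍ => conjDet N k F e τ ^ 2 / ModularForm.discriminant τ ^ n) τ := by
    intro γ τ
    simp only
    rw [conjDet_sq_smul hmem e γ τ, disc_smul γ τ, mul_pow,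
      zpow_sub₀ (denom_ne_zero γ τ), ← zpow_natCast (denom γ τ ^ (12 : ℤ)), ← zpow_mul]
    have h1 : denom γ τ ^ ((12 : ℤ) * (n : ℤ)) ≠ 0 := zpow_ne_zero _ (denom_ne_zero γ τ)
    have h2 : ModularForm.discriminant τ ^ n ≠ 0 :=
      pow_ne_zero _ (ModularForm.discriminant_ne_zero τ)
    field_simp
  have hne : ∀ τ : ℍ,
      (fun τ : ℍ => conjDet N k F e τ ^ 2 / ModularForm.discriminant τ ^ n) τ ≠ 0 := by
    intro τ
    exact div_ne_zero (pow_ne_zero _ (conjDet_ne_zero e τ (hpi τ)))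
      (pow_ne_zero _ (ModularForm.discriminant_ne_zero τ))
  have hw := weight_eq_zero_of_unit hG hinv hne hℓ hlim
  rw [← hn]
  omega

end Fermat.Agent.S20.SumW
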