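import Fermat.Agent.S20.SumWeights.LevelOne

/-!
# Package C5, part 3: the determinant of the conjugate matrix of a homogeneous basis
-/

set_option autoImplicit false

open UpperHalfPlane ModularForm CongruenceSubgroup Matrix.SpecialLinearGroup
open Filter Topology
open scoped MatrixGroups ModularForm Manifold

namespace Fermat.Agent.S20.SumW

variable {N : ℕ} [NeZero N] {ι : Type} [Fintype ι] {k : ι → ℤ} {F : ι → ℍ → ℂ}

/-- `∏ a ^ n i = a ^ ∑ n i` for integer exponents. -/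
theorem prod_zpow_eq_zpow_sum {α : Type*} (s : Finset α) (a : ℂ) (ha : a ≠ 0) (n : α → ℤ) :
    ∏ i ∈ s, a ^ n i = a ^ ∑ i ∈ s, n i := by
  classical
  induction s using Finset.induction_on with
  | empty => simp
  | insert i t hi IH => rw [Finset.prod_insert hi, Finset.sum_insert hi, IH, zpow_add₀ ha]

/-- The square matrix of conjugates of the basis, rows indexed through `e`. -/
noncomputable def conjMat (N : ℕ) [NeZero N] (k : ι → ℤ) (F : ι → ℍ → ℂ)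
    (e : (SL(2, ℤ) ⧸ Gamma0 N) ≃ ι) (τ : ℍ) :
    Matrix (SL(2, ℤ) ⧸ Gamma0 N) (SL(2, ℤ) ⧸ Gamma0 N) ℂ :=
  Matrix.of fun p q => conj (Gamma0 N) (k (e p)) (F (e p)) q τ

/-- Its determinant. -/
noncomputable def conjDet (N : ℕ) [NeZero N] (k : ι → ℤ) (F : ι → ℍ → ℂ)
    (e : (SL(2, ℤ) ⧸ Gamma0 N) ≃ ι) (τ : ℍ) : ℂ :=
  (conjMat N k F e τ).det

omit [Fintype ι] in
theorem conjDet_ne_zero (e : (SL(2, ℤ) ⧸ Gamma0 N) ≃ ι) (τ : ℍ)
    (h : LinearIndependent ℂ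
      (fun j : ι => fun q : SL(2, ℤ) ⧸ Gamma0 N => conj (Gamma0 N) (k j) (F j) q τ)) :
    conjDet N k F e τ ≠ 0 := by
  have h2 : LinearIndependent ℂ (conjMat N k F e τ).row := h.comp e e.injective
  have h3 := Matrix.linearIndependent_rows_iff_isUnit.mp h2
  exact ((Matrix.isUnit_iff_isUnit_det _).mp h3).ne_zero

theorem conjDet_smul (hB : ∀ j, IsMF (Gamma0 N) (k j) (F j)) (e : (SL(2, ℤ) ⧸ Gamma0 N) ≃ ι)
    (γ : SL(2, ℤ)) (τ : ℍ) :
    conjDet N k F e (γ • τ) =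
      denom γ τ ^ (∑ j, k j) *
        (((Equiv.Perm.sign (MulAction.toPerm γ⁻¹ : Equiv.Perm (SL(2, ℤ) ⧸ Gamma0 N)) : ℤ) : ℂ) *
          conjDet N k F e τ) := by
  unfold conjDet
  have hM : conjMat N k F e (γ • τ) = Matrix.of fun p q => (denom γ τ ^ k (e p)) *
      ((conjMat N k F e τ).submatrix id
        (MulAction.toPerm γ⁻¹ : Equiv.Perm (SL(2, ℤ) ⧸ Gamma0 N))) p q := by
    ext p q
    simp only [conjMat, Matrix.of_apply, Matrix.submatrix_apply, id, MulAction.toPerm_apply]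
    exact conj_smul_apply (hB (e p)).2.1 q γ τ
  rw [hM, Matrix.det_mul_column, Matrix.det_permute',
    prod_zpow_eq_zpow_sum _ _ (denom_ne_zero γ τ), Equiv.sum_comp e k]

theorem conjDet_sq_smul (hB : ∀ j, IsMF (Gamma0 N) (k j) (F j))
    (e : (SL(2, ℤ) ⧸ Gamma0 N) ≃ ι)
    (γ : SL(2, ℤ)) (τ : ℍ) :
    conjDet N k F e (γ • τ) ^ 2 = denom γ τ ^ (2 * ∑ j, k j) * conjDet N k F e τ ^ 2 := by
  rw [conjDet_smul hB e γ τ, mul_pow, mul_pow, ← zpow_natCast (denom γ τ ^ _), ← zpow_mul]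
  have hs : (((Equiv.Perm.sign (MulAction.toPerm γ⁻¹ :
      Equiv.Perm (SL(2, ℤ) ⧸ Gamma0 N)) : ℤ) : ℂ)) ^ 2 = 1 := by
    rcases Int.units_eq_one_or (Equiv.Perm.sign (MulAction.toPerm γ⁻¹ :
      Equiv.Perm (SL(2, ℤ) ⧸ Gamma0 N))) with h | h <;> simp [h]
  rw [hs, one_mul, mul_comm (∑ j, k j)]
  norm_num

omit [Fintype ι] in
theorem conjDet_mdiff (hB : ∀ j, IsMF (Gamma0 N) (k j) (F j))
    (e : (SL(2, ℤ) ⧸ Gamma0 N) ≃ ι) :
    MDiff (conjDet N k F e) := by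
  have h : conjDet N k F e = ∑ σ : Equiv.Perm (SL(2, ℤ) ⧸ Gamma0 N),
      (((Equiv.Perm.sign σ : ℤ) : ℂ)) • ∏ p, conj (Gamma0 N) (k (e (σ p))) (F (e (σ p))) p := by
    ext τ
    simp only [conjDet, Matrix.det_apply, conjMat, Matrix.of_apply, Finset.sum_apply,
      Pi.smul_apply, Finset.prod_apply, smul_eq_mul]
    refine Finset.sum_congr rfl fun σ _ => ?_
    rw [Units.smul_def, zsmul_eq_mul]
  rw [h]
  refine MDifferentiable.sum fun σ _ => ?_
  refine MDifferentiable.const_smul (((Equiv.Perm.sign σ : ℤ) : ℂ)) ?_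
  refine MDifferentiable.prod fun p _ => ?_
  exact conj_mdiff (hB _).1 p

end Fermat.Agent.S20.SumW
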