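import Fermat.Agent.S20.SumWeights.ConjApi

/-!
# Package C5, part 2: a holomorphic level-one function of negative weight, bounded at `i∞`, is `0`
-/

set_option autoImplicit false

open UpperHalfPlane ModularForm CongruenceSubgroup Matrix.SpecialLinearGroup
open Filter Topology
open scoped MatrixGroups ModularForm Manifold

namespace Fermat.Agent.S20.SumW

/-- Pointwise transformation law implies slash invariance. -/
theorem slash_eq_of_smul_eq {w : ℤ} {G : ℍ → ℂ}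
    (hinv : ∀ (γ : SL(2, ℤ)) (τ : ℍ), G (γ • τ) = denom γ τ ^ w * G τ) (γ : SL(2, ℤ)) :
    G ∣[w] γ = G := by
  ext τ
  rw [SL_slash_apply, hinv γ τ, mul_comm, ← mul_assoc, ← zpow_add₀ (denom_ne_zero γ τ)]
  simp

/-- Bundle a holomorphic function with the level-one transformation law, bounded at `i∞`,
as a Mathlib modular form. -/
noncomputable def mkLevelOne (w : ℤ) (G : ℍ → ℂ) (hG : MDiff G)
    (hinv : ∀ (γ : SL(2, ℤ)) (τ : ℍ), G (γ • τ) = denom γ τ ^ w * G τ)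
    (hbdd : IsBoundedAtImInfty G) : ModularForm 𝒮ℒ w where
  toFun := G
  slash_action_eq' A hA := by
    obtain ⟨A, rfl⟩ := hA
    exact slash_eq_of_smul_eq hinv A
  holo' := hG
  bdd_at_cusps' hc := by
    rw [Subgroup.IsArithmetic.isCusp_iff_isCusp_SL2Z] at hc
    rw [OnePoint.isBoundedAt_iff_forall_SL2Z hc]
    intro γ _
    rw [slash_eq_of_smul_eq hinv]
    exact hbdd

theorem eq_zero_of_neg_weight {w : ℤ} (hw : w < 0) {G : ℍ → ℂ} (hG : MDiff G)
    (hinv : ∀ (γ : SL(2, ℤ)) (τ : ℍ), G (γ • τ) = denom γ τ ^ w * G τ)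
    (hbdd : IsBoundedAtImInfty G) : G = 0 :=
  ModularFormClass.levelOne_neg_weight_eq_zero hw (mkLevelOne w G hG hinv hbdd)

/-- A nowhere vanishing holomorphic function with the level-one transformation law of weight `w`
and a nonzero limit at `i∞` has weight `0`. -/
theorem weight_eq_zero_of_unit {w : ℤ} {G : ℍ → ℂ} (hG : MDiff G)
    (hinv : ∀ (γ : SL(2, ℤ)) (τ : ℍ), G (γ • τ) = denom γ τ ^ w * G τ)
    (hne : ∀ τ, G τ ≠ 0) {ℓ : ℂ} (hℓ : ℓ ≠ 0) (hlim : Tendsto G atImInfty (𝓝 ℓ)) :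
    w = 0 := by
  by_contra hw0
  rcases lt_or_gt_of_ne hw0 with hw | hw
  · have h0 := eq_zero_of_neg_weight hw hG hinv (hlim.isBigO_one ℝ)
    exact hne UpperHalfPlane.I (by rw [h0]; rfl)
  · have hG' : MDiff G⁻¹ := hG.inv hne
    have hinv' : ∀ (γ : SL(2, ℤ)) (τ : ℍ), G⁻¹ (γ • τ) = denom γ τ ^ (-w) * G⁻¹ τ := by
      intro γ τ
      simp only [Pi.inv_apply, hinv γ τ, mul_inv, zpow_neg]
    have hlim' : Tendsto G⁻¹ atImInfty (𝓝 ℓ⁻¹) := hlim.inv₀ hℓ
    have h0 := eq_zero_of_neg_weight (by omega : -w < 0) hG' hinv' (hlim'.isBigO_one ℝ)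
    have h1 : G⁻¹ UpperHalfPlane.I = 0 := by rw [h0]; rfl
    exact hne UpperHalfPlane.I (by simpa using h1)

end Fermat.Agent.S20.SumW
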